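import Fermat.Agent.HeilbronnSum.Main
import Mathlib.Algebra.Order.Field.Basic
import Mathlib.Analysis.PSeries

/-!
# The refinement of Heath-Brown and Konyagin

The truncated logarithm takes values in a set of `T` residues `O ((p T)^(2/3))` times; hence the
energy of the `p`th powers modulo `p²` is `O (p^(5/2))` and Heilbronn's sum is `O (p^(7/8))`.
-/

set_option autoImplicit false

noncomputable section

namespace FA.HeilbronnSum

open Polynomial Finset

variable {p : ℕ} [Fact p.Prime]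

/-- **Heath-Brown and Konyagin**: the truncated logarithm and a set of values. -/
theorem card_values_pow_le (T : Finset (ZMod p)) :
    ((univ.filter fun x : ZMod p => (truncLog p).eval x ∈ T).card : ℝ) ^ 3 ≤
      81 ^ 3 * ((p : ℝ) * T.card) ^ 2 := by
  classical
  obtain ⟨S, hS⟩ : ∃ S, S = univ.filter fun x : ZMod p => (truncLog p).eval x ∈ T := ⟨_, rfl⟩
  rw [← hS]
  rcases T.eq_empty_or_nonempty with hT | hT
  · simp [hS, hT]
  obtain ⟨t, ht⟩ : ∃ t, t = T.card := ⟨_, rfl⟩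
  have ht1 : 1 ≤ t := ht ▸ hT.card_pos
  rw [← ht]
  obtain ⟨q, hq⟩ : ∃ q : ℝ, q = ((p : ℝ) * t) ^ (1 / 3 : ℝ) := ⟨_, rfl⟩
  have hpR : (1 : ℝ) ≤ p := Nat.one_le_cast.2 (Fact.out (p := p.Prime)).one_le
  have htR : (1 : ℝ) ≤ t := Nat.one_le_cast.2 ht1
  have hpt : (1 : ℝ) ≤ (p : ℝ) * t := one_le_mul_of_one_le_of_one_le hpR htR
  have hq1 : 1 ≤ q := hq ▸ Real.one_le_rpow hpt (by norm_num)
  have hq3 : q ^ 3 = (p : ℝ) * t := by
    rw [hq, ← Real.rpow_natCast, ← Real.rpow_mul (by linarith)]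
    norm_num
  suffices (S.card : ℝ) ≤ 81 * q ^ 2 by
    refine (pow_le_pow_left₀ (Nat.cast_nonneg _) this 3).trans (le_of_eq ?_)
    rw [mul_pow, ← pow_mul, mul_comm 2 3, pow_mul, hq3]
  have hSp : (S.card : ℝ) ≤ p := Nat.cast_le.2 ((card_le_univ S).trans_eq (ZMod.card p))
  by_cases hbig : (p : ℝ) ≤ 81 * q ^ 2
  · exact hSp.trans hbig
  rw [not_le] at hbig
  obtain ⟨B, hB⟩ : ∃ B, B = ⌊q⌋₊ := ⟨_, rfl⟩
  have hBq : (B : ℝ) ≤ q := hB ▸ Nat.floor_le (by linarith)
  have hqB : q < B + 1 := hB ▸ Nat.lt_floor_add_one q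
  have hB1 : 1 ≤ B := hB ▸ Nat.floor_pos.2 hq1
  have hB1' : (1 : ℝ) ≤ B := Nat.one_le_cast.2 hB1
  have hB3 : B ^ 3 ≤ p * t := by
    have h := (pow_le_pow_left₀ (Nat.cast_nonneg B) hBq 3).trans_eq hq3
    exact_mod_cast h
  have hBB : B * B ≤ p := by
    have h : ((B : ℝ)) * B ≤ p := by
      rw [← sq]
      exact (pow_le_pow_left₀ (Nat.cast_nonneg B) hBq 2).trans (by linarith [sq_nonneg q])
    exact_mod_cast h
  have hM1 : 4 * t ≤ B ^ 2 := by
    by_contra h
    rw [not_le] at h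
    have h' : (B : ℝ) ^ 2 < 4 * t := by exact_mod_cast h
    have h2 : q ^ 2 ≤ 4 * (B : ℝ) ^ 2 := by
      rw [show 4 * (B : ℝ) ^ 2 = (2 * B) ^ 2 by ring]
      exact pow_le_pow_left₀ (by linarith) (by linarith) 2
    have h3 : q ^ 2 * q ≤ 16 * t * q := mul_le_mul_of_nonneg_right (by linarith) (by linarith)
    rw [← pow_succ, hq3] at h3
    have h5 : (p : ℝ) * t ≤ 16 * q * t := by linarith
    have h6 := le_of_mul_le_mul_right h5 (by linarith)
    linarith [le_self_pow₀ hq1 two_ne_zero]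
  obtain ⟨A, hA⟩ : ∃ A, A = p / B := ⟨_, rfl⟩
  obtain ⟨M, hM⟩ : ∃ M, M = B ^ 2 / (4 * t) := ⟨_, rfl⟩
  have hBA : B ≤ A := hA ▸ (Nat.le_div_iff_mul_le hB1).2 hBB
  have hMA : M ≤ A := by
    rw [hA, Nat.le_div_iff_mul_le hB1]
    have h1 := Nat.mul_le_mul_right B (show M * (4 * t) ≤ B ^ 2 from hM ▸ Nat.div_mul_le_self _ _)
    have h2 : M * B * t ≤ p * t := by
      have h3 : M * (4 * t) * B ≤ p * t := h1.trans ((pow_succ B 2).symm.trans_le hB3)
      have h4 : 0 ≤ M * B * t := Nat.zero_le _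
      linarith
    exact Nat.le_of_mul_le_mul_right h2 ht1
  have hcount : T.card * (M * (A + B + M)) < A * (B * B) := by
    rw [← ht]
    have h1 := Nat.mul_le_mul (show M * (4 * t) ≤ B ^ 2 from hM ▸ Nat.div_mul_le_self _ _)
      (show A + B + M ≤ 3 * A by omega)
    have h2 : 0 < A * (B * B) := Nat.mul_pos (by omega) (Nat.mul_pos hB1 hB1)
    rw [sq] at h1
    linarith
  have hAB : A * B ≤ p := hA ▸ Nat.div_mul_le_self p B
  have hMp : M ≤ p := hMA.trans ((Nat.le_mul_of_pos_right A hB1).trans hAB)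
  have h := card_values_le_aux (p := p) (A := A) (B := B) (M := M) (by omega) hB1 hAB hMp T hcount
  obtain ⟨s, hs⟩ : ∃ s, s = (univ.filter fun x : ZMod p =>
      (truncLog p).eval x ∈ T ∧ x ≠ 0 ∧ x ≠ 1).card := ⟨_, rfl⟩
  rw [← hs] at h
  have h' : S.card ≤ s + 2 := by
    rw [hs, hS]
    refine (card_le_card (t := (univ.filter fun x : ZMod p =>
      (truncLog p).eval x ∈ T ∧ x ≠ 0 ∧ x ≠ 1) ∪ {0, 1}) fun x hx => ?_).trans
      ((card_union_le _ _).trans (Nat.add_le_add_left card_le_two _))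
    simp only [mem_filter, mem_univ, true_and, mem_union, mem_insert, mem_singleton] at hx ⊢
    tauto
  have h8 : B ^ 2 * s ≤ 24 * p * t * B := by
    have hM8 : B ^ 2 ≤ 8 * t * M := by
      have h1 := Nat.div_add_mod (B ^ 2) (4 * t)
      have h2 := Nat.mod_lt (B ^ 2) (show 0 < 4 * t by omega)
      have h3 : 1 ≤ M := hM ▸ (Nat.one_le_div_iff (show 0 < 4 * t by omega)).2 hM1
      have h4 := Nat.mul_le_mul_left (4 * t) h3
      rw [← hM] at h1
      linarith
    have h1 := Nat.mul_le_mul_right s hM8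
    have h2 := Nat.mul_le_mul_left (8 * t) h
    have h3 := Nat.mul_le_mul_left (8 * t) ((Nat.le_mul_of_pos_right A hB1).trans (hAB.trans
      (Nat.le_mul_of_pos_right p hB1)))
    linarith
  have h9 : (B : ℝ) * ((B : ℝ) * s) ≤ (B : ℝ) * (24 * p * t) := by
    have := (Nat.cast_le (α := ℝ)).2 h8
    push_cast at this
    linarith
  have h10 := le_of_mul_le_mul_left h9 (by linarith)
  have h11 : q * s ≤ q * (48 * q ^ 2) := by
    have := mul_le_mul_of_nonneg_right (show q ≤ 2 * (B : ℝ) by linarith) (Nat.cast_nonneg s)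
    linarith
  have h12 := le_of_mul_le_mul_left h11 (by linarith)
  have h13 : (S.card : ℝ) ≤ s + 2 := by exact_mod_cast h'
  have h14 : (1 : ℝ) ≤ q ^ 2 := one_le_pow₀ hq1
  linarith

/-- The mean square of the multiplicities. -/
theorem sum_sq_card_value_le :
    ∑ r : ZMod p, ((univ.filter fun x : ZMod p => (truncLog p).eval x = r).card : ℝ) ^ 2 ≤
      2918 * ((p : ℝ) * Real.sqrt p) := by
  classical
  obtain ⟨N, hN⟩ : ∃ N : ZMod p → ℕ,
      N = fun r => (univ.filter fun x : ZMod p => (truncLog p).eval x = r).card := ⟨_, rfl⟩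
  obtain ⟨T, hT⟩ : ∃ T : ℕ → Finset (ZMod p), T = fun k => univ.filter fun r => k ≤ N r := ⟨_, rfl⟩
  obtain ⟨R, hR⟩ : ∃ R, R = Real.sqrt p := ⟨_, rfl⟩
  rw [← hR]
  have hp0 : (0 : ℝ) < p := Nat.cast_pos.2 (Fact.out (p := p.Prime)).pos
  have hR1 : 1 ≤ R := hR ▸ Real.one_le_sqrt.2 (Nat.one_le_cast.2 (Fact.out (p := p.Prime)).one_le)
  have hR2 : R * R = p := hR ▸ Real.mul_self_sqrt hp0.le
  have hNp : ∀ r, N r ≤ p := fun r => by
    rw [hN]
    exact (card_le_univ _).trans_eq (ZMod.card p)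
  have hkey : ∀ k, ∑ r ∈ T k, N r = (univ.filter fun x : ZMod p =>
      (truncLog p).eval x ∈ T k).card := fun k => by
    obtain ⟨U, hU⟩ : ∃ U, U = univ.filter fun x : ZMod p => (truncLog p).eval x ∈ T k := ⟨_, rfl⟩
    have hmem : ∀ x ∈ U, (truncLog p).eval x ∈ T k := fun x hx => by
      rw [hU, mem_filter] at hx
      exact hx.2
    rw [← hU, card_eq_sum_card_fiberwise (f := fun x => (truncLog p).eval x) (t := T k) hmem]
    refine sum_congr rfl fun r hr => ?_
    rw [hN]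
    refine congrArg Finset.card ?_
    ext x
    simp only [hU, mem_filter, mem_univ, true_and]
    exact ⟨fun e => ⟨e ▸ hr, e⟩, fun e => e.2⟩
  have hmul : ∀ k, ((k * (T k).card : ℕ) : ℝ) ≤ (univ.filter fun x : ZMod p =>
      (truncLog p).eval x ∈ T k).card := fun k => Nat.cast_le.2 (by
    rw [← hkey, mul_comm]
    exact card_nsmul_le_sum _ _ _ fun r hr => by rw [hT, mem_filter] at hr; exact hr.2)
  have hb1 : ∀ k : ℕ, (k : ℝ) * (T k).card ≤ p := fun k => by
    rw [← Nat.cast_mul]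
    exact (hmul k).trans (Nat.cast_le.2 ((card_le_univ _).trans_eq (ZMod.card p)))
  have hb2 : ∀ k : ℕ, 1 ≤ k → (k : ℝ) * (T k).card ≤ 81 ^ 3 * (p : ℝ) ^ 2 * ((k : ℝ) ^ 2)⁻¹ := by
    intro k hk
    have hk0 : (0 : ℝ) < k := Nat.cast_pos.2 hk
    rcases (T k).eq_empty_or_nonempty with h | h
    · rw [h, card_empty, Nat.cast_zero, mul_zero]
      positivity
    · have h1 := (pow_le_pow_left₀ (by positivity) (hmul k) 3).trans (card_values_pow_le (T k))
      push_cast at h1
      rw [← div_eq_mul_inv, le_div_iff₀ (by positivity)]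
      refine le_of_mul_le_mul_right ?_ (show (0 : ℝ) < ((T k).card : ℝ) ^ 2 by
        have := h.card_pos; positivity)
      linarith
  have hlayer : ∑ r : ZMod p, (N r : ℝ) ^ 2 ≤ 2 * ∑ k ∈ Icc 1 p, (k : ℝ) * (T k).card := by
    have h1 : ∀ n : ℕ, (n : ℝ) ^ 2 ≤ 2 * ∑ k ∈ Icc 1 n, (k : ℝ) := by
      intro n
      induction n with
      | zero => simp
      | succ n ih =>
        rw [sum_Icc_succ_top (by omega : 1 ≤ n + 1), Nat.cast_succ]
        linarith
    refine (sum_le_sum fun r _ => h1 (N r)).trans (le_of_eq ?_)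
    rw [← mul_sum]
    congr 1
    rw [sum_comm' (t' := Icc 1 p) (s' := T)]
    · refine sum_congr rfl fun k _ => ?_
      rw [sum_const, nsmul_eq_mul, mul_comm]
    · intro r k
      simp only [hT, mem_univ, mem_Icc, mem_filter, true_and]
      exact ⟨fun h => ⟨h.2, h.1, h.2.trans (hNp r)⟩, fun h => ⟨h.2.1, h.1⟩⟩
  obtain ⟨L, hL⟩ : ∃ L, L = ⌈729 * R⌉₊ := ⟨_, rfl⟩
  have hL1 : 729 * R ≤ L := hL ▸ Nat.le_ceil _
  have hL2 : (L : ℝ) ≤ 730 * R := by
    have := Nat.ceil_lt_add_one (show 0 ≤ 729 * R by positivity)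
    rw [← hL] at this
    linarith
  have hL0 : L ≠ 0 := by
    intro h
    rw [h, Nat.cast_zero] at hL1
    linarith
  have hsum : ∑ k ∈ Icc 1 p, (k : ℝ) * (T k).card ≤
      (L : ℝ) * p + 81 ^ 3 * (p : ℝ) ^ 2 * (L : ℝ)⁻¹ := by
    rw [← sum_filter_add_sum_filter_not (Icc 1 p) fun k => k ≤ L]
    refine add_le_add ?_ ?_
    · refine (sum_le_card_nsmul _ _ (p : ℝ) fun k _ => hb1 k).trans ?_
      rw [nsmul_eq_mul]
      refine mul_le_mul_of_nonneg_right (Nat.cast_le.2 ?_) hp0.le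
      refine (card_le_card (t := Icc 1 L) fun k hk => ?_).trans (by simp)
      simp only [mem_filter, mem_Icc] at hk ⊢
      omega
    · refine (sum_le_sum fun k hk => hb2 k (mem_Icc.1 (mem_filter.1 hk).1).1).trans ?_
      rw [← mul_sum]
      refine mul_le_mul_of_nonneg_left ?_ (by positivity)
      rcases le_or_gt L p with hLp | hLp
      · refine (sum_le_sum_of_subset_of_nonneg (t := Ioc L p) (fun k hk => ?_)
          (fun k _ _ => by positivity)).trans
          ((sum_Ioc_inv_sq_le_sub hL0 hLp).trans (by simp))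
        simp only [mem_filter, mem_Icc, mem_Ioc] at hk ⊢
        omega
      · rw [filter_false_of_mem fun k hk => by rw [mem_Icc] at hk; omega, sum_empty]
        positivity
  have hfin : (L : ℝ) * p + 81 ^ 3 * (p : ℝ) ^ 2 * (L : ℝ)⁻¹ ≤ 1459 * ((p : ℝ) * R) := by
    have h1 : (L : ℝ) * p ≤ 730 * R * p := mul_le_mul_of_nonneg_right hL2 hp0.le
    have h2 : 81 ^ 3 * (p : ℝ) ^ 2 * (L : ℝ)⁻¹ ≤ 729 * R * p := by
      rw [mul_inv_le_iff₀ (by linarith)]
      have h3 := mul_le_mul_of_nonneg_left hL1 (show 0 ≤ 729 * R * (p : ℝ) by positivity)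
      rw [show 729 * R * (p : ℝ) * (729 * R) = 81 ^ 3 * (p : ℝ) * (R * R) by ring, hR2] at h3
      linarith
    linarith
  rw [hN] at hlayer
  linarith

/-- **Heath-Brown and Konyagin**: Heilbronn's sum is `O (p^(7/8))`. -/
theorem norm_heilSum_le_konyagin (hodd : Odd p) {a : ℤ} (ha : ¬(p : ℤ) ∣ a) :
    ‖heilSum (a : ZMod (p ^ 2))‖ ≤ 8 * (p : ℝ) ^ (7 / 8 : ℝ) := by
  have hpR : (0 : ℝ) ≤ p := Nat.cast_nonneg p
  have h := (norm_heilSum_pow_le hodd ha).trans
    (mul_le_mul_of_nonneg_right sum_sq_card_value_le (sq_nonneg (p : ℝ)))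
  refine le_of_pow_le_pow_left₀ four_ne_zero (by positivity) (h.trans ?_)
  rw [mul_pow, ← Real.rpow_natCast ((p : ℝ) ^ (7 / 8 : ℝ)) 4, ← Real.rpow_mul hpR,
    show (7 / 8 : ℝ) * ((4 : ℕ) : ℝ) = 1 + 1 / 2 + 2 by norm_num,
    Real.rpow_add' hpR (by norm_num), Real.rpow_add' hpR (by norm_num), Real.rpow_one,
    Real.rpow_two, ← Real.sqrt_eq_rpow, mul_assoc (2918 : ℝ)]
  exact mul_le_mul_of_nonneg_right (by norm_num) (by positivity)

theorem norm_sum_exp_le_konyagin {a : ℤ} (ha : ¬(p : ℤ) ∣ a) :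
    ‖∑ n ∈ range p, Complex.exp (2 * Real.pi * Complex.I * a * (n : ℂ) ^ p / (p : ℂ) ^ 2)‖ ≤
      8 * (p : ℝ) ^ (7 / 8 : ℝ) := by
  rcases (Fact.out (p := p.Prime)).eq_two_or_odd' with rfl | hodd
  · refine (norm_sum_le _ _).trans ((sum_le_card_nsmul _ _ 1 fun n _ => le_of_eq ?_).trans ?_)
    · rw [show 2 * (Real.pi : ℂ) * Complex.I * a * (n : ℂ) ^ 2 / ((2 : ℕ) : ℂ) ^ 2 =
        ((2 * Real.pi * a * (n : ℝ) ^ 2 / ((2 : ℕ) : ℝ) ^ 2 : ℝ) : ℂ) * Complex.I by
          push_cast; ring, Complex.norm_exp_ofReal_mul_I]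
    · rw [card_range, nsmul_eq_mul, mul_one]
      have h : (1 : ℝ) ≤ ((2 : ℕ) : ℝ) ^ (7 / 8 : ℝ) :=
        Real.one_le_rpow (by norm_num) (by norm_num)
      push_cast at h ⊢
      linarith
  · rw [sum_exp_eq_heilSum]
    exact norm_heilSum_le_konyagin hodd ha

theorem castHom_powLift (x : ZMod p) :
    ZMod.castHom (dvd_pow_self p two_ne_zero) (ZMod p) (powLift x) = x := by
  rw [powLift, map_pow, map_natCast, ZMod.natCast_zmod_val, ZMod.pow_card]

/-- **Heath-Brown and Konyagin**: the energy of the `p`th powers modulo `p²`. -/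
theorem energy_le (hodd : Odd p) :
    ((univ.filter fun z : (ZMod p × ZMod p) × (ZMod p × ZMod p) =>
      powLift z.1.1 + powLift z.1.2 = powLift z.2.1 + powLift z.2.2).card : ℝ) ≤
      2919 * ((p : ℝ) ^ 2 * Real.sqrt p) := by
  classical
  obtain ⟨f, hf⟩ : ∃ f : ZMod p → ZMod p, f = fun x => (truncLog p).eval x := ⟨_, rfl⟩
  obtain ⟨W, hW⟩ : ∃ W, W = univ.filter fun z : ZMod p × ZMod p => f z.1 = f z.2 := ⟨_, rfl⟩
  -- the quadruples with sum zero modulo `p`, and the others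
  have hsub : (univ.filter fun z : (ZMod p × ZMod p) × (ZMod p × ZMod p) =>
      powLift z.1.1 + powLift z.1.2 = powLift z.2.1 + powLift z.2.2) ⊆
      (univ : Finset (ZMod p × ZMod p)).image (fun z => ((z.1, -z.1), (z.2, -z.2))) ∪
        ((univ : Finset (ZMod p)) ×ˢ W).image (fun z =>
          ((z.1 * z.2.1, z.1 * (1 - z.2.1)), (z.1 * z.2.2, z.1 * (1 - z.2.2)))) := by
    rintro ⟨⟨a, b⟩, ⟨c, d⟩⟩ hz
    simp only [mem_filter, mem_univ, true_and] at hz
    have hs : a + b = c + d := by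
      have := congrArg (ZMod.castHom (dvd_pow_self p two_ne_zero) (ZMod p)) hz
      simpa only [map_add, castHom_powLift] using this
    rcases eq_or_ne (a + b) 0 with h0 | h0
    · refine mem_union_left _ (mem_image.2 ⟨(a, c), mem_univ _, ?_⟩)
      simp only [Prod.mk.injEq, true_and]
      exact ⟨by linear_combination -h0, by linear_combination -h0 + hs⟩
    · refine mem_union_right _ (mem_image.2
        ⟨(a + b, ((a + b)⁻¹ * a, (a + b)⁻¹ * c)), mem_product.2 ⟨mem_univ _, ?_⟩, ?_⟩)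
      · have hone : (a + b) * (a + b)⁻¹ = 1 := mul_inv_cancel₀ h0
        have hb : b = (a + b) * (1 - (a + b)⁻¹ * a) := by linear_combination a * hone
        have hd : d = (a + b) * (1 - (a + b)⁻¹ * c) := by linear_combination c * hone - hs
        have ha : a = (a + b) * ((a + b)⁻¹ * a) := by linear_combination -a * hone
        have hc : c = (a + b) * ((a + b)⁻¹ * c) := by linear_combination -c * hone
        obtain ⟨x, hx⟩ : ∃ x, x = (a + b)⁻¹ * a := ⟨_, rfl⟩
        obtain ⟨y, hy⟩ : ∃ y, y = (a + b)⁻¹ * c := ⟨_, rfl⟩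
        obtain ⟨u, hu⟩ : ∃ u, u = a + b := ⟨_, rfl⟩
        rw [← hx, ← hu] at hb ha
        rw [← hy, ← hu] at hd hc
        rw [← hu] at h0
        simp only [hW, mem_filter, mem_univ, true_and, ← hx, ← hy, hf]
        rw [ha, hb, hc, hd, powLift_mul, powLift_mul, powLift_mul, powLift_mul, ← mul_add,
          ← mul_add, powLift_add_powLift_one_sub hodd, powLift_add_powLift_one_sub hodd] at hz
        have hunit : powLift u * powLift u⁻¹ = 1 := by
          rw [← powLift_mul, mul_inv_cancel₀ h0, ← Int.cast_one, powLift_intCast, Int.cast_one,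
            one_pow]
        refine sub_eq_zero.1 (mulLift_eq_zero ?_)
        have hmap := map_sub (mulLiftHom p) ((truncLog p).eval x) ((truncLog p).eval y)
        simp only [mulLiftHom, AddMonoidHom.mk'_apply] at hmap
        linear_combination hmap - powLift u⁻¹ * hz -
          (mulLift ((truncLog p).eval x) - mulLift ((truncLog p).eval y)) * hunit
      · simp only [Prod.mk.injEq]
        have hone : (a + b) * (a + b)⁻¹ = 1 := mul_inv_cancel₀ h0
        exact ⟨⟨by linear_combination a * hone, by linear_combination -a * hone⟩,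
          by linear_combination c * hone, by linear_combination -c * hone + hs⟩
  refine (Nat.cast_le.2 ((card_le_card hsub).trans ((card_union_le _ _).trans
    (add_le_add card_image_le card_image_le)))).trans ?_
  rw [card_product, card_univ, card_univ, Fintype.card_prod, ZMod.card, Nat.cast_add,
    Nat.cast_mul, Nat.cast_mul]
  have hWc : (W.card : ℝ) =
      ∑ r : ZMod p, ((univ.filter fun x : ZMod p => (truncLog p).eval x = r).card : ℝ) ^ 2 := by
    have e : W.card = ∑ r : ZMod p, (univ.filter fun x : ZMod p => f x = r).card *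
        (univ.filter fun x : ZMod p => f x = r).card := by
      rw [hW, card_eq_sum_card_fiberwise (f := fun z : ZMod p × ZMod p => f z.1) (t := univ)
        fun z _ => mem_univ _]
      refine sum_congr rfl fun r _ => ?_
      rw [← card_product]
      refine congrArg Finset.card ?_
      ext ⟨x, y⟩
      simp only [mem_filter, mem_univ, true_and, mem_product]
      exact ⟨fun h => ⟨h.2, h.1 ▸ h.2⟩, fun h => ⟨h.1.trans h.2.symm, h.1⟩⟩
    rw [e, Nat.cast_sum]
    refine sum_congr rfl fun r _ => ?_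
    rw [hf, Nat.cast_mul, sq]
  have hp : (0 : ℝ) ≤ p := Nat.cast_nonneg p
  have h1 : (1 : ℝ) ≤ Real.sqrt p :=
    Real.one_le_sqrt.2 (Nat.one_le_cast.2 (Fact.out (p := p.Prime)).one_le)
  have h2 := mul_le_mul_of_nonneg_left h1 (sq_nonneg (p : ℝ))
  have h3 := mul_le_mul_of_nonneg_left (hWc.trans_le sum_sq_card_value_le) hp
  linarith

end FA.HeilbronnSum
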