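import Fermat.Agent.HeilbronnSum.Sum
import Fermat.Agent.Equidistribution.Criterion
import Mathlib.Analysis.SpecialFunctions.Pow.Asymptotics

/-!
# The distribution of the `p`th powers modulo `p²`

From the bound for Heilbronn's sum by Weyl's criterion, for the triangular array of the `n^p / p²`.
-/

set_option autoImplicit false

noncomputable section

namespace FA.HeilbronnSum

open Finset Filter
open scoped Topology

theorem sum_range_eq_sum_zmod {p : ℕ} [Fact p.Prime] {β : Type*} [AddCommMonoid β]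
    (F : ZMod p → β) : ∑ x ∈ range p, F (x : ZMod p) = ∑ x : ZMod p, F x := by
  refine sum_nbij' (fun x => (x : ZMod p)) ZMod.val (fun x _ => mem_univ _)
    (fun x _ => mem_range.2 (ZMod.val_lt x)) (fun x hx => ?_) (fun x _ => ?_) fun x _ => rfl
  · exact ZMod.val_natCast_of_lt (mem_range.1 hx)
  · exact ZMod.natCast_zmod_val x

theorem sum_exp_eq_heilSum {p : ℕ} [Fact p.Prime] (a : ℤ) :
    ∑ n ∈ range p, Complex.exp (2 * Real.pi * Complex.I * a * (n : ℂ) ^ p / (p : ℂ) ^ 2) =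
      heilSum (a : ZMod (p ^ 2)) := by
  rw [heilSum, ← sum_range_eq_sum_zmod]
  refine sum_congr rfl fun n _ => ?_
  rw [show (a : ZMod (p ^ 2)) * powLift (n : ZMod p) = ((a * (n : ℤ) ^ p : ℤ) : ZMod (p ^ 2)) by
    rw [powLift_natCast]; push_cast; ring, eSq_intCast]
  congr 1
  push_cast
  ring

theorem norm_sum_exp_le {p : ℕ} (hp : p.Prime) {a : ℤ} (ha : ¬(p : ℤ) ∣ a) :
    ‖∑ n ∈ range p, Complex.exp (2 * Real.pi * Complex.I * a * (n : ℂ) ^ p / (p : ℂ) ^ 2)‖ ≤
      3 * (p : ℝ) ^ (11 / 12 : ℝ) := by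
  have := Fact.mk hp
  rcases hp.eq_two_or_odd' with rfl | hodd
  · refine (norm_sum_le _ _).trans ((sum_le_card_nsmul _ _ 1 fun n _ => le_of_eq ?_).trans ?_)
    · rw [show 2 * (Real.pi : ℂ) * Complex.I * a * (n : ℂ) ^ 2 / ((2 : ℕ) : ℂ) ^ 2 =
        ((2 * Real.pi * a * (n : ℝ) ^ 2 / ((2 : ℕ) : ℝ) ^ 2 : ℝ) : ℂ) * Complex.I by
          push_cast; ring, Complex.norm_exp_ofReal_mul_I]
    · rw [card_range, nsmul_eq_mul, mul_one]
      have h : (1 : ℝ) ≤ ((2 : ℕ) : ℝ) ^ (11 / 12 : ℝ) :=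
        Real.one_le_rpow (by norm_num) (by norm_num)
      push_cast at h ⊢
      linarith
  · rw [sum_exp_eq_heilSum]
    exact norm_heilSum_le hodd ha

theorem card_fermat_congruence_le {p : ℕ} (hp : p.Prime) :
    (Nat.card {x : ℕ // x < p ∧ ∃ y : ℕ, x ^ p + y ^ p ≡ 1 [MOD p ^ 2]} : ℝ) ≤
      38 * (p : ℝ) ^ (2 / 3 : ℝ) := by
  classical
  have := Fact.mk hp
  have hset : Nat.card {x : ℕ // x < p ∧ ∃ y : ℕ, x ^ p + y ^ p ≡ 1 [MOD p ^ 2]} =
      ((range p).filter fun x => ∃ y : ℕ, x ^ p + y ^ p ≡ 1 [MOD p ^ 2]).card := by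
    rw [← Nat.card_eq_finsetCard]
    exact Nat.card_congr (Equiv.subtypeEquivRight fun x => by simp [mem_filter, mem_range])
  rw [hset]
  rcases hp.eq_two_or_odd' with rfl | hodd
  · refine (Nat.cast_le.2 ((card_filter_le _ _).trans_eq (card_range 2))).trans ?_
    have h : (1 : ℝ) ≤ ((2 : ℕ) : ℝ) ^ (2 / 3 : ℝ) :=
      Real.one_le_rpow (by norm_num) (by norm_num)
    push_cast at h ⊢
    linarith
  · refine le_trans (Nat.cast_le.2 ?_) (card_value_le (p := p) 0)
    refine card_le_card_of_injOn (fun x => (x : ZMod p)) (fun x hx => ?_) (fun x hx y hy h => ?_)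
    · simp only [coe_filter, mem_range, Set.mem_ofPred_eq] at hx
      obtain ⟨-, y, hy⟩ := hx
      rw [← ZMod.natCast_eq_natCast_iff] at hy
      simp only [coe_filter, mem_univ, true_and, Set.mem_ofPred_eq]
      push_cast at hy
      have h1 : (x : ZMod p) + y = 1 := by
        have h2 := congrArg (ZMod.castHom (dvd_pow_self p two_ne_zero) (ZMod p)) hy
        simpa [ZMod.pow_card] using h2
      have h3 := powLift_add_powLift_one_sub hodd (x : ZMod p)
      rw [show (1 : ZMod p) - x = (y : ZMod p) by linear_combination -h1, powLift_natCast,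
        powLift_natCast, hy] at h3
      exact mulLift_eq_zero (by linear_combination h3)
    · simp only [coe_filter, mem_range, Set.mem_ofPred_eq] at hx hy
      rw [← ZMod.val_natCast_of_lt hx.1, ← ZMod.val_natCast_of_lt hy.1]
      exact congrArg ZMod.val h

/-- The primes, going to infinity. -/
def primesAtTop : Filter ℕ := atTop ⊓ 𝓟 {p | p.Prime}

/-- **Heath-Brown**: the `p`th powers modulo `p²` are equidistributed. -/
theorem tendsto_count_pow_mod {a b : ℝ} (ha : 0 ≤ a) (hab : a ≤ b) (hb : b ≤ 1) :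
    Tendsto (fun p : ℕ => (((range p).filter fun n : ℕ =>
        Int.fract ((n : ℝ) ^ p / (p : ℝ) ^ 2) ∈ Set.Ico a b).card : ℝ) / p)
      primesAtTop (𝓝 (b - a)) := by
  have : primesAtTop.IsCountablyGenerated :=
    inferInstanceAs (atTop ⊓ 𝓟 {p : ℕ | p.Prime}).IsCountablyGenerated
  refine tendsto_iff_seq_tendsto.2 fun q hq => ?_
  have hev : ∀ᶠ N in atTop, (q N).Prime :=
    hq.eventually (eventually_inf_principal.2 (Eventually.of_forall fun p hp => hp))
  have hq' : Tendsto q atTop atTop := hq.mono_right inf_le_left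
  obtain ⟨s, hs⟩ : ∃ s : ℕ → Finset ℕ, s = fun N => (range (q N)).image (Nat.pair (q N)) :=
    ⟨_, rfl⟩
  obtain ⟨x, hx⟩ : ∃ x : ℕ → ℝ, x = fun m =>
      ((Nat.unpair m).2 : ℝ) ^ (Nat.unpair m).1 / ((Nat.unpair m).1 : ℝ) ^ 2 := ⟨_, rfl⟩
  have hinj : ∀ N, Set.InjOn (Nat.pair (q N)) (range (q N) : Set ℕ) := fun N u _ v _ h =>
    ((Nat.pair_eq_pair).1 h).2
  have hcard : ∀ N, (s N).card = q N := fun N => by
    rw [hs]
    exact (card_image_of_injOn (hinj N)).trans (card_range _)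
  have hval : ∀ N n, x (Nat.pair (q N) n) = (n : ℝ) ^ q N / (q N : ℝ) ^ 2 := fun N n => by
    rw [hx]
    simp [Nat.unpair_pair]
  have hexp : FA.Equidist.ExpMeanZero s x := by
    intro h h0
    have hlim : Tendsto (fun N => 3 * (q N : ℝ) ^ (-(1 / 12) : ℝ)) atTop (𝓝 0) := by
      have h1 := ((tendsto_rpow_neg_atTop (show (0 : ℝ) < 1 / 12 by norm_num)).comp
        (tendsto_natCast_atTop_atTop.comp hq')).const_mul (3 : ℝ)
      rwa [mul_zero] at h1
    refine squeeze_zero_norm' ?_ hlim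
    filter_upwards [hev, hq'.eventually_gt_atTop h.natAbs] with N hp hlt
    have hnd : ¬((q N : ℕ) : ℤ) ∣ h := fun hd =>
      absurd (Nat.le_of_dvd (Int.natAbs_pos.2 h0) (Int.natCast_dvd.1 hd)) (not_le.2 hlt)
    have hq0 : (0 : ℝ) < q N := Nat.cast_pos.2 hp.pos
    rw [FA.Equidist.avg, norm_div, Complex.norm_natCast, hcard, div_le_iff₀ hq0, hs]
    simp only
    rw [sum_image (hinj N), mul_assoc,
      ← Real.rpow_add_one hq0.ne', show (-(1 / 12) : ℝ) + 1 = 11 / 12 by norm_num]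
    refine le_of_eq_of_le ?_ (norm_sum_exp_le hp hnd)
    congr 1
    refine sum_congr rfl fun n _ => ?_
    rw [hval, FA.ThreePrimes.eAdd]
    congr 1
    push_cast
    ring
  have h := hexp.intervalMean (by simp only [hcard]; exact hq') a b ha hab hb
  refine h.congr fun N => ?_
  simp only [hcard, Function.comp_apply]
  congr 2
  rw [hs]
  simp only [filter_image]
  rw [card_image_of_injOn ((hinj N).mono (coe_subset.2 (filter_subset _ _)))]
  refine congrArg card (filter_congr fun n _ => ?_)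
  rw [hval]

end FA.HeilbronnSum
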