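import Mathlib.Algebra.Polynomial.FieldDivision
import Mathlib.Algebra.Polynomial.Derivative
import Mathlib.FieldTheory.Finite.Basic
import Mathlib.LinearAlgebra.Dimension.Constructions
import Mathlib.Analysis.SpecialFunctions.Pow.Real
import Mathlib.Data.Nat.Prime.Factorial

/-!
# The lemma of Mit'kin and Heath-Brown

The truncated logarithm `X + X² / 2 + ⋯ + X^(p-1) / (p-1)` takes no value more than `O (p^(2/3))`
times in `ℤ/p`: Stepanov's method with the differential equation `(1 - X) f' = 1 - X^(p-1)`.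
-/

set_option autoImplicit false

noncomputable section

namespace FA.HeilbronnSum

open Polynomial Finset

variable {p : ℕ} [Fact p.Prime]

/-- The truncated logarithm. -/
def truncLog (p : ℕ) [Fact p.Prime] : (ZMod p)[X] :=
  ∑ k ∈ range (p - 1), C (((k + 1 : ℕ) : ZMod p)⁻¹) * X ^ (k + 1)

theorem natCast_ne_zero {k : ℕ} (hk : 0 < k) (hkp : k < p) : (k : ZMod p) ≠ 0 := fun h =>
  absurd (Nat.le_of_dvd hk ((ZMod.natCast_eq_zero_iff k p).1 h)) (not_le.2 hkp)

theorem natDegree_truncLog_le : (truncLog p).natDegree ≤ p - 1 := by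
  refine natDegree_sum_le_of_forall_le _ _ fun k hk => (natDegree_C_mul_X_pow_le _ _).trans ?_
  rw [mem_range] at hk
  omega

theorem one_sub_X_mul_derivative :
    (1 - X) * derivative (truncLog p) = 1 - X ^ (p - 1) := by
  rw [← mul_neg_geom_sum, truncLog, map_sum]
  congr 1
  refine sum_congr rfl fun k hk => ?_
  rw [mem_range] at hk
  rw [derivative_C_mul_X_pow, inv_mul_cancel₀ (natCast_ne_zero (Nat.succ_pos k) (by omega)), C_1,
    one_mul, Nat.add_sub_cancel]

/-- `∑ (1 - X)^a G_a(f)`. -/
def combo (A : ℕ) (G : ℕ → (ZMod p)[X]) : (ZMod p)[X] :=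
  ∑ a ∈ range A, (1 - X) ^ a * (G a).comp (truncLog p)

/-- **No relation of low degree** holds between `X` and the truncated logarithm modulo `X^p`. -/
theorem combo_independent {A : ℕ} (hA : A ≤ p) :
    ∀ (n : ℕ) (d : ℕ → ℕ) (G : ℕ → (ZMod p)[X]) (m : ℕ), (∑ a ∈ range A, d a) ≤ n → n ≤ m →
      m ≤ p → (∀ a ∈ range A, ∀ k, d a ≤ k → (G a).coeff k = 0) → X ^ m ∣ combo A G →
      ∀ a ∈ range A, G a = 0 := by
  intro n
  induction n with
  | zero =>
    intro d G m hd _ _ hG _ a ha
    ext k
    rw [coeff_zero]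
    refine hG a ha k ?_
    have := single_le_sum (fun i _ => Nat.zero_le (d i)) ha
    omega
  | succ n ih =>
    intro d G m hd hnm hmp hG hdvd
    by_cases h0 : ∀ a ∈ range A, d a = 0
    · intro a ha
      ext k
      rw [coeff_zero]
      exact hG a ha k (by rw [h0 a ha]; exact Nat.zero_le k)
    push Not at h0
    obtain ⟨a₀, ha₀, hd₀⟩ := h0
    obtain ⟨G', hG'⟩ : ∃ G' : ℕ → (ZMod p)[X],
        G' = fun a => derivative (G a) + C ((a₀ : ZMod p) - a) * G a := ⟨_, rfl⟩
    have hdiv : X ^ (m - 1) ∣ combo A G' := by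
      have e : combo A G' = (1 - X) * derivative (combo A G) + C (a₀ : ZMod p) * combo A G +
          X ^ (p - 1) * ∑ a ∈ range A, (1 - X) ^ a * (derivative (G a)).comp (truncLog p) := by
        simp only [combo, hG', map_sum, mul_sum, ← sum_add_distrib]
        refine sum_congr rfl fun a _ => ?_
        rw [derivative_mul, derivative_comp, add_comp, mul_comp, C_comp, derivative_pow]
        simp only [derivative_sub, derivative_one, derivative_X, C_sub]
        have h1 := one_sub_X_mul_derivative (p := p)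
        rcases a with - | b
        · simp only [Nat.cast_zero, C_0, zero_mul, pow_zero, zero_add, mul_zero]
          linear_combination -((derivative (G 0)).comp (truncLog p)) * h1
        · simp only [Nat.succ_sub_one, pow_succ, Nat.cast_succ]
          linear_combination -((1 - X) ^ b * (1 - X) *
            (derivative (G (b + 1))).comp (truncLog p)) * h1
      rw [e]
      exact dvd_add (dvd_add (dvd_mul_of_dvd_right (pow_sub_one_dvd_derivative_of_pow_dvd hdvd) _)
        (dvd_mul_of_dvd_right ((pow_dvd_pow X (Nat.sub_le m 1)).trans hdvd) _))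
        (dvd_mul_of_dvd_left (pow_dvd_pow X (Nat.sub_le_sub_right hmp 1)) _)
    have hsum : (∑ a ∈ range A, Function.update d a₀ (d a₀ - 1) a) ≤ n := by
      rw [sum_update_of_mem ha₀, sdiff_singleton_eq_erase]
      have := add_sum_erase (range A) d ha₀
      omega
    have hcoef : ∀ a ∈ range A, ∀ k, Function.update d a₀ (d a₀ - 1) a ≤ k →
        (G' a).coeff k = 0 := by
      intro a ha k hk
      rw [hG', coeff_add, coeff_derivative, coeff_C_mul]
      rcases eq_or_ne a a₀ with rfl | hne
      · rw [Function.update_self] at hk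
        rw [hG a ha (k + 1) (by omega), sub_self]
        simp
      · rw [Function.update_of_ne hne] at hk
        rw [hG a ha (k + 1) (by omega), hG a ha k hk]
        simp
    have hz := ih _ G' (m - 1) hsum (by omega) (by omega) hcoef hdiv
    have hoth : ∀ a ∈ range A, a ≠ a₀ → G a = 0 := by
      intro a ha hne
      have h1 := congrArg (fun q : (ZMod p)[X] => q.coeff (G a).natDegree) (hz a ha)
      simp only [hG', coeff_add, coeff_derivative, coeff_C_mul, coeff_zero,
        coeff_natDegree] at h1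
      rw [coeff_eq_zero_of_natDegree_lt (Nat.lt_succ_self _), zero_mul, zero_add, mul_eq_zero,
        leadingCoeff_eq_zero] at h1
      refine h1.resolve_left (sub_ne_zero.2 fun h => hne ?_)
      have := (ZMod.natCast_eq_natCast_iff' a₀ a p).1 h
      rw [Nat.mod_eq_of_lt ((mem_range.1 ha₀).trans_le hA),
        Nat.mod_eq_of_lt ((mem_range.1 ha).trans_le hA)] at this
      exact this.symm
    have hconst : G a₀ = C ((G a₀).coeff 0) := by
      ext k
      rcases k with - | k
      · rw [coeff_C_zero]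
      · rw [coeff_C_succ]
        rcases le_or_gt (d a₀) (k + 1) with hk | hk
        · exact hG a₀ ha₀ _ hk
        · have h1 := congrArg (fun q : (ZMod p)[X] => q.coeff k) (hz a₀ ha₀)
          simp only [hG', coeff_add, coeff_derivative, coeff_C_mul, coeff_zero, sub_self,
            zero_mul, add_zero, mul_eq_zero] at h1
          refine h1.resolve_right ?_
          rw [← Nat.cast_succ]
          refine natCast_ne_zero (Nat.succ_pos k) ?_
          have := single_le_sum (fun i _ => Nat.zero_le (d i)) ha₀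
          omega
    intro a ha
    rcases eq_or_ne a a₀ with rfl | hne
    · have e : combo A G = (1 - X) ^ a * C ((G a).coeff 0) := by
        rw [combo, sum_eq_single a (fun b hb hne => by rw [hoth b hb hne, zero_comp, mul_zero])
          (fun h => absurd ha h)]
        nth_rewrite 1 [hconst]
        rw [C_comp]
      have h1 := (dvd_pow_self X (show m ≠ 0 by omega)).trans hdvd
      rw [e, X_dvd_iff, coeff_zero_eq_eval_zero] at h1
      simp only [eval_mul, eval_pow, eval_sub, eval_one, eval_X, sub_zero, one_pow, one_mul,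
        eval_C] at h1
      rw [hconst, h1, C_0]
    · exact hoth a ha hne

/-- `X (1 - X) d/dX`. -/
def euler (p : ℕ) [Fact p.Prime] : (ZMod p)[X] →ₗ[ZMod p] (ZMod p)[X] :=
  (LinearMap.mulLeft (ZMod p) (X * (1 - X))).comp derivative

theorem eval_euler_pow (x : ZMod p) : ∀ (m : ℕ) (g : (ZMod p)[X]),
    ((euler p)^[m] ((X - C x) ^ m * g)).eval x =
      (m.factorial : ZMod p) * (x * (1 - x)) ^ m * g.eval x := by
  intro m
  induction m with
  | zero => intro g; simp
  | succ m ih =>
    intro g
    have e : euler p ((X - C x) ^ (m + 1) * g) = (X - C x) ^ m *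
        (X * (1 - X) * (C ((m + 1 : ℕ) : ZMod p) * g + (X - C x) * derivative g)) := by
      simp only [euler, LinearMap.coe_comp, Function.comp_apply, LinearMap.mulLeft_apply,
        derivative_mul, derivative_X_sub_C_pow, Nat.add_sub_cancel]
      push_cast
      ring
    rw [Function.iterate_succ_apply, e, ih, Nat.factorial_succ]
    simp only [eval_mul, eval_add, eval_sub, eval_X, eval_C, eval_one, sub_self, zero_mul,
      add_zero]
    push_cast
    ring

theorem le_rootMultiplicity_of_euler {Ψ : (ZMod p)[X]} (hΨ : Ψ ≠ 0) {x : ZMod p} (hx0 : x ≠ 0)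
    (hx1 : x ≠ 1) {M : ℕ} (hM : M ≤ p) (h : ∀ k < M, ((euler p)^[k] Ψ).eval x = 0) :
    M ≤ Ψ.rootMultiplicity x := by
  by_contra hlt
  rw [not_le] at hlt
  obtain ⟨g, hg, hndvd⟩ := exists_eq_pow_rootMultiplicity_mul_and_not_dvd Ψ hΨ x
  have h1 := h _ hlt
  nth_rewrite 2 [hg] at h1
  rw [eval_euler_pow, mul_eq_zero, mul_eq_zero] at h1
  rcases h1 with (h1 | h1) | h1
  · rw [ZMod.natCast_eq_zero_iff, Nat.Prime.dvd_factorial (Fact.out (p := p.Prime))] at h1
    omega
  · exact absurd (eq_zero_of_pow_eq_zero h1) (mul_ne_zero hx0 (sub_ne_zero.2 hx1.symm))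
  · exact hndvd (dvd_iff_isRoot.2 h1)

/-- `(1 - X)^a f^b X^(p c)`. -/
def basisPoly (p : ℕ) [Fact p.Prime] (a b c : ℕ) : (ZMod p)[X] :=
  (1 - X) ^ a * truncLog p ^ b * X ^ (p * c)

/-- The values of the iterates of `euler` where `f = r`, in the variable `1 - x`. -/
def valuePoly (r : ZMod p) : ℕ → ℕ → ℕ → ℕ → (ZMod p)[X]
  | 0, a, b, c => C (r ^ b) * X ^ a * (1 - X) ^ c
  | k + 1, a, b, c => C (a : ZMod p) * (valuePoly r k (a + 1) b c - valuePoly r k a b c) +
      C (b : ZMod p) * (valuePoly r k a (b - 1) c - valuePoly r k (a + 1) (b - 1) c -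
        valuePoly r k a (b - 1) (c + 1))

theorem natDegree_valuePoly (r : ZMod p) :
    ∀ k a b c, (valuePoly r k a b c).natDegree ≤ a + c + k := by
  intro k
  induction k with
  | zero =>
    intro a b c
    rw [valuePoly]
    refine (natDegree_mul_le.trans (add_le_add (natDegree_C_mul_X_pow_le _ _)
      (natDegree_pow_le.trans (Nat.mul_le_mul_left c
        (show (1 - X : (ZMod p)[X]).natDegree ≤ 1 from
          (natDegree_sub_le _ _).trans (by simp)))))).trans (by simp)
  | succ k ih =>
    intro a b c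
    rw [valuePoly]
    refine (natDegree_add_le _ _).trans (max_le ?_ ?_)
    · refine (natDegree_C_mul_le _ _).trans ((natDegree_sub_le _ _).trans (max_le ?_ ?_))
      · exact (ih _ _ _).trans (by omega)
      · exact (ih _ _ _).trans (by omega)
    · refine (natDegree_C_mul_le _ _).trans ((natDegree_sub_le _ _).trans (max_le
        ((natDegree_sub_le _ _).trans (max_le ?_ ?_)) ?_))
      · exact (ih _ _ _).trans (by omega)
      · exact (ih _ _ _).trans (by omega)
      · exact (ih _ _ _).trans (by omega)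

theorem euler_basisPoly (a b c : ℕ) : euler p (basisPoly p a b c) =
    (a : ZMod p) • (basisPoly p (a + 1) b c - basisPoly p a b c) +
      (b : ZMod p) • (basisPoly p a (b - 1) c - basisPoly p (a + 1) (b - 1) c -
        basisPoly p a (b - 1) (c + 1)) := by
  have hp : 1 ≤ p := (Fact.out (p := p.Prime)).one_le
  have h1 := one_sub_X_mul_derivative (p := p)
  have h2 : (X : (ZMod p)[X]) * X ^ (p - 1) = X ^ p := by
    rw [← pow_succ', Nat.sub_add_cancel hp]
  simp only [euler, LinearMap.coe_comp, Function.comp_apply, LinearMap.mulLeft_apply, basisPoly,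
    smul_eq_C_mul, derivative_mul, derivative_pow, derivative_sub, derivative_one, derivative_X,
    Nat.cast_mul, ZMod.natCast_self, zero_mul, C_0, mul_zero, add_zero, mul_add, pow_succ,
    pow_add, mul_one]
  rcases a with - | a <;> rcases b with - | b <;>
    simp only [Nat.cast_zero, C_0, zero_mul, mul_zero, add_zero, zero_add, Nat.add_sub_cancel,
      pow_zero, pow_succ]
  · linear_combination (C ((b + 1 : ℕ) : ZMod p) * X * truncLog p ^ b * X ^ (p * c)) * h1 -
      (C ((b + 1 : ℕ) : ZMod p) * truncLog p ^ b * X ^ (p * c)) * h2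
  · ring
  · linear_combination (C ((b + 1 : ℕ) : ZMod p) * X * ((1 - X) ^ a * (1 - X)) * truncLog p ^ b *
      X ^ (p * c)) * h1 - (C ((b + 1 : ℕ) : ZMod p) * ((1 - X) ^ a * (1 - X)) * truncLog p ^ b *
      X ^ (p * c)) * h2

theorem eval_euler_basisPoly {r x : ZMod p} (hx : (truncLog p).eval x = r) :
    ∀ k a b c, ((euler p)^[k] (basisPoly p a b c)).eval x =
      (valuePoly r k a b c).eval (1 - x) := by
  intro k
  induction k with
  | zero =>
    intro a b c
    simp only [Function.iterate_zero, id_eq, basisPoly, valuePoly, eval_mul, eval_pow, eval_sub,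
      eval_one, eval_X, eval_C, hx, sub_sub_cancel]
    rw [pow_mul, ZMod.pow_card]
    ring
  | succ k ih =>
    intro a b c
    rw [Function.iterate_succ_apply, euler_basisPoly, ← Module.End.coe_pow]
    simp only [map_add, map_smul, map_sub, eval_add, eval_smul, eval_sub, smul_eq_mul, valuePoly,
      eval_mul, eval_C]
    simp only [Module.End.coe_pow, ih]

theorem card_values_le_aux {A B M : ℕ} (hA : 0 < A) (hB : 0 < B) (hAB : A * B ≤ p) (hMp : M ≤ p)
    (T : Finset (ZMod p)) (hcount : T.card * (M * (A + B + M)) < A * (B * B)) :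
    M * (univ.filter fun x : ZMod p => (truncLog p).eval x ∈ T ∧ x ≠ 0 ∧ x ≠ 1).card ≤
      A + 2 * p * B := by
  classical
  let Φ : (Fin A × Fin B × Fin B → ZMod p) →ₗ[ZMod p] (T × Fin M × Fin (A + B + M) → ZMod p) :=
    { toFun := fun v z => ∑ i, v i *
          (valuePoly (z.1 : ZMod p) (z.2.1 : ℕ) i.1 i.2.1 i.2.2).coeff z.2.2
      map_add' := fun v w => by funext z; simp [add_mul, sum_add_distrib]
      map_smul' := fun c v => by funext z; simp [mul_sum, mul_assoc] }
  have hker : LinearMap.ker Φ ≠ ⊥ := by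
    refine LinearMap.ker_ne_bot_of_finrank_lt ?_
    rw [Module.finrank_fintype_fun_eq_card, Module.finrank_fintype_fun_eq_card]
    simpa only [Fintype.card_prod, Fintype.card_fin, Fintype.card_coe] using hcount
  obtain ⟨v, hv, hv0⟩ := (Submodule.ne_bot_iff _).1 hker
  rw [LinearMap.mem_ker] at hv
  obtain ⟨Ψ, hΨ⟩ : ∃ Ψ, Ψ = ∑ i, v i • basisPoly p i.1 i.2.1 i.2.2 := ⟨_, rfl⟩
  have hzero : ∀ r ∈ T, ∀ k < M, ∑ i, v i • valuePoly r k i.1 i.2.1 i.2.2 = 0 := by
    intro r hr k hk
    ext j
    rw [finsetSum_coeff, coeff_zero]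
    simp only [coeff_smul, smul_eq_mul]
    by_cases hj : j < A + B + M
    · exact congrFun hv (⟨r, hr⟩, ⟨k, hk⟩, ⟨j, hj⟩)
    · refine sum_eq_zero fun i _ => ?_
      rw [coeff_eq_zero_of_natDegree_lt ((natDegree_valuePoly r k _ _ _).trans_lt ?_), mul_zero]
      have := i.1.2
      have := i.2.2.2
      omega
  have hne : Ψ ≠ 0 := by
    intro hΨ0
    refine hv0 (funext fun i => ?_)
    suffices ∀ (c : ℕ) (i : Fin A × Fin B × Fin B), (i.2.2 : ℕ) = c → v i = 0 from this _ i rfl
    intro c
    induction c using Nat.strong_induction_on with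
    | _ c ih =>
      intro i hi
      obtain ⟨G, hG⟩ : ∃ G : ℕ → (ZMod p)[X], G = fun a => ∑ b : Fin B,
          if h : a < A then C (v (⟨a, h⟩, b, i.2.2)) * X ^ (b : ℕ) else 0 := ⟨_, rfl⟩
      have hcombo : combo A G = ∑ a : Fin A, ∑ b : Fin B,
          C (v (a, b, i.2.2)) * ((1 - X) ^ (a : ℕ) * truncLog p ^ (b : ℕ)) := by
        rw [combo, ← Fin.sum_univ_eq_sum_range
          (fun a => (1 - X) ^ a * (G a).comp (truncLog p)) A]
        refine sum_congr rfl fun a _ => ?_
        simp only [hG, dif_pos a.2, Fin.eta]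
        rw [Polynomial.sum_comp, mul_sum]
        refine sum_congr rfl fun b _ => ?_
        simp only [mul_comp, C_comp, pow_comp, X_comp]
        ring
      have hdvd : X ^ p ∣ combo A G := by
        have h1 : X ^ (p * c) * X ^ p ∣ X ^ (p * c) * combo A G := by
          rw [← pow_add, ← Nat.mul_succ]
          have e : X ^ (p * c) * combo A G = Ψ - ∑ j ∈ univ.filter (fun j : Fin A × Fin B × Fin B =>
              j.2.2 ≠ i.2.2), v j • basisPoly p j.1 j.2.1 j.2.2 := by
            rw [hΨ, ← sum_filter_add_sum_filter_not univ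
              (fun j : Fin A × Fin B × Fin B => j.2.2 = i.2.2), add_sub_cancel_right, hcombo,
              ← hi]
            rw [show (univ.filter fun j : Fin A × Fin B × Fin B => j.2.2 = i.2.2) =
              (univ : Finset (Fin A)) ×ˢ (univ : Finset (Fin B)) ×ˢ {i.2.2} by
                ext ⟨x, y, z⟩; simp [eq_comm]]
            rw [sum_product, mul_sum]
            refine sum_congr rfl fun a _ => ?_
            rw [sum_product, mul_sum]
            refine sum_congr rfl fun b _ => ?_
            rw [sum_singleton, smul_eq_C_mul, basisPoly]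
            ring
          rw [e, hΨ0, zero_sub, dvd_neg]
          refine dvd_sum fun j hj => ?_
          rw [mem_filter] at hj
          rcases lt_or_gt_of_ne (fun h : (j.2.2 : ℕ) = c => hj.2 (Fin.ext (h.trans hi.symm)))
            with h | h
          · rw [ih _ h j rfl, zero_smul]
            exact dvd_zero _
          · rw [smul_eq_C_mul, basisPoly]
            exact dvd_mul_of_dvd_right (dvd_mul_of_dvd_right
              (pow_dvd_pow X (Nat.mul_le_mul_left p (Nat.succ_le_of_lt h))) _) _
        exact (mul_dvd_mul_iff_left (pow_ne_zero _ X_ne_zero)).1 h1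
      have hG0 := combo_independent (le_trans (Nat.le_mul_of_pos_right A hB) hAB) (A * B)
        (fun _ => B) G p (by simp) hAB le_rfl (fun a ha k hk => ?_) hdvd (i.1 : ℕ)
        (mem_range.2 i.1.2)
      · have h2 := congrArg (fun q : (ZMod p)[X] => q.coeff (i.2.1 : ℕ)) hG0
        simp only [hG, dif_pos i.1.2, Fin.eta, finsetSum_coeff, coeff_C_mul_X_pow, coeff_zero]
          at h2
        rw [sum_eq_single i.2.1 (fun b _ hb => if_neg fun h => hb (Fin.ext h.symm))
          (fun h => absurd (mem_univ _) h), if_pos rfl] at h2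
        exact h2
      · simp only [hG, dif_pos (mem_range.1 ha), finsetSum_coeff, coeff_C_mul_X_pow]
        exact sum_eq_zero fun b _ => if_neg (fun h => absurd b.2 (by omega))
  obtain ⟨S, hS⟩ : ∃ S, S = univ.filter fun x : ZMod p =>
      (truncLog p).eval x ∈ T ∧ x ≠ 0 ∧ x ≠ 1 := ⟨_, rfl⟩
  rw [← hS]
  have hmult : ∀ x ∈ S, M ≤ Ψ.rootMultiplicity x := by
    intro x hx
    rw [hS, mem_filter] at hx
    obtain ⟨-, hxr, hx0, hx1⟩ := hx
    refine le_rootMultiplicity_of_euler hne hx0 hx1 hMp fun k hk => ?_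
    rw [hΨ, ← Module.End.coe_pow, map_sum, eval_finsetSum]
    simp only [map_smul, eval_smul, smul_eq_mul]
    simp only [Module.End.coe_pow, eval_euler_basisPoly rfl]
    have h2 := congrArg (eval (1 - x)) (hzero _ hxr k hk)
    simpa only [eval_finsetSum, eval_smul, smul_eq_mul, eval_zero] using h2
  have hdeg : Ψ.natDegree ≤ A + 2 * p * B := by
    rw [hΨ]
    refine natDegree_sum_le_of_forall_le _ _ fun i _ => (natDegree_smul_le _ _).trans ?_
    rw [basisPoly]
    refine natDegree_mul_le.trans ((add_le_add (natDegree_mul_le.trans (add_le_add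
      (natDegree_pow_le.trans (Nat.mul_le_mul (i.1.2.le) ((natDegree_sub_le _ _).trans
        (le_of_eq (by simp : _ = 1)))))
      (natDegree_pow_le.trans (Nat.mul_le_mul i.2.1.2.le natDegree_truncLog_le))))
      (natDegree_X_pow_le _)).trans ?_)
    have h3 : p * (i.2.2 : ℕ) ≤ p * B := Nat.mul_le_mul_left p i.2.2.2.le
    have h4 : B * (p - 1) ≤ p * B := by rw [mul_comm]; exact Nat.mul_le_mul_right B (Nat.sub_le p 1)
    rw [mul_assoc, two_mul, mul_one]
    omega
  refine le_trans ?_ hdeg
  refine le_trans ?_ (card_roots' Ψ)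
  rw [mul_comm, ← smul_eq_mul, ← sum_const]
  refine le_trans (sum_le_sum fun x hx => (hmult x hx).trans (le_of_eq (count_roots _).symm)) ?_
  rw [← Multiset.toFinset_sum_count_eq Ψ.roots]
  exact sum_le_sum_of_ne_zero fun x _ hx => Multiset.mem_toFinset.2 (Multiset.count_ne_zero.1 hx)

theorem card_value_le_aux {A B M : ℕ} (hA : 0 < A) (hB : 0 < B) (hAB : A * B ≤ p) (hMp : M ≤ p)
    (hcount : M * (A + B + M) < A * (B * B)) (r : ZMod p) :
    M * (univ.filter fun x : ZMod p => (truncLog p).eval x = r ∧ x ≠ 0 ∧ x ≠ 1).card ≤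
      A + 2 * p * B := by
  simpa only [mem_singleton] using
    card_values_le_aux hA hB hAB hMp {r} (by rwa [card_singleton, one_mul])

/-- **Mit'kin, Heath-Brown**: the values of the truncated logarithm are taken `O (p^(2/3))`
times. -/
theorem card_value_le (r : ZMod p) :
    ((univ.filter fun x : ZMod p => (truncLog p).eval x = r).card : ℝ) ≤
      38 * (p : ℝ) ^ (2 / 3 : ℝ) := by
  classical
  obtain ⟨q, hq⟩ : ∃ q, q = (p : ℝ) ^ (1 / 3 : ℝ) := ⟨_, rfl⟩
  have hpR : (0 : ℝ) ≤ p := Nat.cast_nonneg p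
  have hq3 : q ^ 3 = p := by
    rw [hq, ← Real.rpow_natCast, ← Real.rpow_mul hpR]
    norm_num
  have hq2 : (p : ℝ) ^ (2 / 3 : ℝ) = q ^ 2 := by
    rw [hq, ← Real.rpow_natCast _ 2, ← Real.rpow_mul hpR]
    norm_num
  have hq1 : 1 ≤ q := by
    rw [hq]
    exact Real.one_le_rpow (Nat.one_le_cast.2 (Fact.out (p := p.Prime)).one_le) (by norm_num)
  rw [hq2]
  obtain ⟨K, hK⟩ : ∃ K, K = ⌊q⌋₊ := ⟨_, rfl⟩
  have hKq : (K : ℝ) ≤ q := hK ▸ Nat.floor_le (by linarith)
  have hqK : q < K + 1 := hK ▸ Nat.lt_floor_add_one q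
  obtain ⟨S, hS⟩ : ∃ S, S = univ.filter fun x : ZMod p => (truncLog p).eval x = r := ⟨_, rfl⟩
  rw [← hS]
  rcases lt_or_ge K 2 with hK2 | hK2
  · have hK2' : (K : ℝ) ≤ 1 := by exact_mod_cast (show K ≤ 1 by omega)
    have h1 : (S.card : ℝ) ≤ p := Nat.cast_le.2 ((card_le_univ S).trans_eq (ZMod.card p))
    have h2 : q ^ 3 ≤ 2 * q ^ 2 := by
      rw [pow_succ q 2, mul_comm]
      exact mul_le_mul_of_nonneg_right (by linarith) (sq_nonneg q)
    linarith [sq_nonneg q]
  · have hK3 : K ^ 3 ≤ p := by
      have h := (pow_le_pow_left₀ (Nat.cast_nonneg K) hKq 3).trans_eq hq3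
      exact_mod_cast h
    have hsq : 4 ≤ K ^ 2 := Nat.pow_le_pow_left hK2 2
    have hK23 : K ^ 2 ≤ K ^ 3 := Nat.pow_le_pow_right (by omega) (by norm_num)
    have hKK : K ≤ K ^ 2 := Nat.le_self_pow two_ne_zero K
    obtain ⟨M, hM⟩ : ∃ M, M = K ^ 2 / 4 := ⟨_, rfl⟩
    have hcount : M * (K ^ 2 + K + M) < K ^ 2 * (K * K) := by
      have h1 := Nat.mul_le_mul (show 4 * M ≤ K ^ 2 by omega) (show K ^ 2 + K + M ≤ 3 * K ^ 2 by
        omega)
      have h2 : 0 < K ^ 2 * K ^ 2 := by positivity
      rw [← sq K]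
      linarith
    have h := card_value_le_aux (p := p) (A := K ^ 2) (B := K) (M := M) (by omega) (by omega)
      (le_of_eq_of_le (by ring) hK3) (by omega) hcount r
    have h' : (univ.filter fun x : ZMod p => (truncLog p).eval x = r).card ≤
        (univ.filter fun x : ZMod p => (truncLog p).eval x = r ∧ x ≠ 0 ∧ x ≠ 1).card + 2 := by
      refine (card_le_card (t := (univ.filter fun x : ZMod p =>
        (truncLog p).eval x = r ∧ x ≠ 0 ∧ x ≠ 1) ∪ {0, 1}) fun x hx => ?_).trans
        ((card_union_le _ _).trans (Nat.add_le_add_left card_le_two _))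
      simp only [mem_filter, mem_univ, true_and, mem_union, mem_insert, mem_singleton] at hx ⊢
      tauto
    obtain ⟨s, hs⟩ : ∃ s, s = (univ.filter fun x : ZMod p =>
      (truncLog p).eval x = r ∧ x ≠ 0 ∧ x ≠ 1).card := ⟨_, rfl⟩
    rw [← hs] at h h'
    rw [← hS] at h'
    have h8 : K ^ 2 * s ≤ 24 * p * K := by
      have h1 := Nat.mul_le_mul_right s (show K ^ 2 ≤ 8 * M by omega)
      have h2 : K ^ 2 ≤ p * K := (hK23.trans hK3).trans (Nat.le_mul_of_pos_right p (by omega))
      linarith
    have h9 : (K : ℝ) * ((K : ℝ) * s) ≤ (K : ℝ) * (24 * p) := by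
      have := (Nat.cast_le (α := ℝ)).2 h8
      push_cast at this
      linarith
    have h10 := le_of_mul_le_mul_left h9 (by positivity)
    have hK2R : (2 : ℝ) ≤ K := by exact_mod_cast hK2
    have h11 : q * s ≤ q * (36 * q ^ 2) := by
      have := mul_le_mul_of_nonneg_right (show q ≤ 3 / 2 * (K : ℝ) by linarith)
        (Nat.cast_nonneg s)
      rw [← hq3] at h10
      linarith
    have h12 := le_of_mul_le_mul_left h11 (by linarith)
    have h13 : (S.card : ℝ) ≤ s + 2 := by exact_mod_cast h'
    have h14 : (1 : ℝ) ≤ q ^ 2 := one_le_pow₀ hq1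
    linarith

end FA.HeilbronnSum
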