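import Fermat.Agent.HeilbronnSum.Stepanov
import Mathlib.Analysis.SpecialFunctions.Complex.CircleAddChar
import Mathlib.NumberTheory.LegendreSymbol.AddCharacter
import Mathlib.NumberTheory.Basic
import Mathlib.Data.Nat.Choose.Dvd
import Mathlib.Algebra.Order.BigOperators.Ring.Finset

/-!
# Heilbronn's exponential sum

`|∑_x e(a x^p / p²)|⁴ ≤ p³ max_r N_r`, `N_r` the number of times the truncated logarithm is `r`.
-/

set_option autoImplicit false

noncomputable section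

namespace FA.HeilbronnSum

open Polynomial Finset
open scoped ComplexConjugate

variable {p : ℕ} [Fact p.Prime]

/-- The `p`th power of any lift, modulo `p²`. -/
def powLift (x : ZMod p) : ZMod (p ^ 2) := (x.val : ZMod (p ^ 2)) ^ p

/-- Multiplication by `p`, from `ℤ/p` to `ℤ/p²`. -/
def mulLift (r : ZMod p) : ZMod (p ^ 2) := (p : ZMod (p ^ 2)) * (r.val : ZMod (p ^ 2))

theorem neZero_sq : NeZero (p ^ 2) := ⟨pow_ne_zero 2 (Fact.out (p := p.Prime)).ne_zero⟩

theorem powLift_intCast (z : ℤ) : powLift (z : ZMod p) = ((z : ZMod (p ^ 2))) ^ p := by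
  obtain ⟨v, hv⟩ : ∃ v : ℕ, v = (z : ZMod p).val := ⟨_, rfl⟩
  have h : (p : ℤ) ∣ (v : ℤ) - z := by
    rw [← ZMod.intCast_zmod_eq_zero_iff_dvd, Int.cast_sub, Int.cast_natCast, hv,
      ZMod.natCast_zmod_val, sub_self]
  have h2 := dvd_sub_pow_of_dvd_sub h 1
  rw [pow_one, show (1 + 1 : ℕ) = 2 from rfl, ← Nat.cast_pow,
    ← ZMod.intCast_zmod_eq_zero_iff_dvd] at h2
  rw [powLift, ← hv, ← sub_eq_zero]
  push_cast at h2
  exact h2

theorem powLift_natCast (n : ℕ) : powLift (n : ZMod p) = (n : ZMod (p ^ 2)) ^ p := by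
  simpa using powLift_intCast (p := p) (n : ℤ)

theorem mulLift_intCast (z : ℤ) : mulLift (z : ZMod p) =
    (p : ZMod (p ^ 2)) * (z : ZMod (p ^ 2)) := by
  obtain ⟨v, hv⟩ : ∃ v : ℕ, v = (z : ZMod p).val := ⟨_, rfl⟩
  have h : (p : ℤ) ∣ (v : ℤ) - z := by
    rw [← ZMod.intCast_zmod_eq_zero_iff_dvd, Int.cast_sub, Int.cast_natCast, hv,
      ZMod.natCast_zmod_val, sub_self]
  have h2 : ((((p : ℤ) * ((v : ℤ) - z)) : ℤ) : ZMod (p ^ 2)) = 0 := by
    rw [ZMod.intCast_zmod_eq_zero_iff_dvd, Nat.cast_pow, sq]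
    exact mul_dvd_mul_left _ h
  rw [mulLift, ← hv, ← sub_eq_zero, ← mul_sub]
  push_cast at h2
  exact h2

theorem mulLift_add (r s : ZMod p) : mulLift (r + s) = mulLift r + mulLift s := by
  obtain ⟨a, rfl⟩ := ZMod.intCast_surjective r
  obtain ⟨b, rfl⟩ := ZMod.intCast_surjective s
  rw [← Int.cast_add, mulLift_intCast, mulLift_intCast, mulLift_intCast, Int.cast_add, mul_add]

/-- `mulLift` as an additive map. -/
def mulLiftHom (p : ℕ) [Fact p.Prime] : ZMod p →+ ZMod (p ^ 2) :=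
  AddMonoidHom.mk' mulLift mulLift_add

theorem mulLift_eq_zero {r : ZMod p} (h : mulLift r = 0) : r = 0 := by
  rw [mulLift, ← Nat.cast_mul, ZMod.natCast_eq_zero_iff, sq] at h
  rw [← ZMod.natCast_zmod_val r, ZMod.natCast_eq_zero_iff]
  exact Nat.dvd_of_mul_dvd_mul_left (Fact.out (p := p.Prime)).pos h

theorem powLift_mul (x y : ZMod p) : powLift (x * y) = powLift x * powLift y := by
  obtain ⟨a, rfl⟩ := ZMod.intCast_surjective x
  obtain ⟨b, rfl⟩ := ZMod.intCast_surjective y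
  rw [← Int.cast_mul, powLift_intCast, powLift_intCast, powLift_intCast, Int.cast_mul, mul_pow]

theorem powLift_neg (hodd : Odd p) (x : ZMod p) : powLift (-x) = -powLift x := by
  obtain ⟨a, rfl⟩ := ZMod.intCast_surjective x
  rw [← Int.cast_neg, powLift_intCast, powLift_intCast, Int.cast_neg, hodd.neg_pow]

theorem choose_pred_eq (k : ℕ) (hk : k < p) :
    (((p - 1).choose k : ℕ) : ZMod p) = (-1) ^ k := by
  induction k with
  | zero => simp
  | succ k ih =>
    have h : p.choose (k + 1) = (p - 1).choose k + (p - 1).choose (k + 1) := by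
      nth_rewrite 1 [show p = (p - 1) + 1 by omega]
      exact Nat.choose_succ_succ _ _
    have h0 : ((p.choose (k + 1) : ℕ) : ZMod p) = 0 :=
      (ZMod.natCast_eq_zero_iff _ _).2
        ((Fact.out (p := p.Prime)).dvd_choose_self (Nat.succ_ne_zero k) hk)
    rw [h, Nat.cast_add, ih (by omega)] at h0
    rw [pow_succ, mul_neg_one]
    exact eq_neg_of_add_eq_zero_right h0

/-- **The congruence behind the Fermat quotient.** -/
theorem powLift_add_powLift_one_sub (hodd : Odd p) (x : ZMod p) :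
    powLift x + powLift (1 - x) = 1 - mulLift ((truncLog p).eval x) := by
  obtain ⟨z, rfl⟩ := ZMod.intCast_surjective x
  have hp := (Fact.out (p := p.Prime))
  rw [← Int.cast_one, ← Int.cast_sub, powLift_intCast, powLift_intCast, Int.cast_sub, Int.cast_one]
  have hpp : p = (p - 1) + 1 := by have := hp.one_le; omega
  have e : (1 - (z : ZMod (p ^ 2))) ^ p = (∑ k ∈ range (p - 1),
      (-(z : ZMod (p ^ 2))) ^ (k + 1) * (p.choose (k + 1) : ℕ)) + 1 - (z : ZMod (p ^ 2)) ^ p := by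
    rw [sub_eq_neg_add, add_pow, sum_range_succ]
    rw [show range p = range (p - 1 + 1) from congrArg range hpp]
    rw [sum_range_succ']
    simp [hodd.neg_pow]
    ring
  have key : ∀ k ∈ range (p - 1), (-(z : ZMod (p ^ 2))) ^ (k + 1) * (p.choose (k + 1) : ℕ) =
      -mulLift ((((k + 1 : ℕ) : ZMod p))⁻¹ * (z : ZMod p) ^ (k + 1)) := by
    intro k hk
    rw [mem_range] at hk
    obtain ⟨c, hc⟩ := hp.dvd_choose_self (Nat.succ_ne_zero k) (show k + 1 < p by omega)
    have hc' : c * (k + 1) = (p - 1).choose k := by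
      have h := Nat.add_one_mul_choose_eq (p - 1) k
      rw [← hpp, hc, mul_assoc] at h
      exact (Nat.eq_of_mul_eq_mul_left hp.pos h).symm
    have hc2 : (c : ZMod p) = (-1) ^ k * (((k + 1 : ℕ) : ZMod p))⁻¹ := by
      have h := congrArg (Nat.cast : ℕ → ZMod p) hc'
      rw [Nat.cast_mul, choose_pred_eq k (by omega)] at h
      exact (eq_mul_inv_iff_mul_eq₀ (natCast_ne_zero (Nat.succ_pos k) (by omega))).2 h
    have e2 : (((k + 1 : ℕ) : ZMod p))⁻¹ * (z : ZMod p) ^ (k + 1) =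
        ((-((-z) ^ (k + 1) * (c : ℤ)) : ℤ) : ZMod p) := by
      push_cast
      rw [hc2, neg_pow (z : ZMod p), pow_succ (-1 : ZMod p)]
      rcases neg_one_pow_eq_or (ZMod p) k with h | h <;> rw [h] <;> push_cast <;> ring
    rw [e2, mulLift_intCast, hc]
    push_cast
    ring
  rw [e, sum_congr rfl key, sum_neg_distrib]
  have hm : mulLift ((truncLog p).eval (z : ZMod p)) = ∑ k ∈ range (p - 1),
      mulLift ((((k + 1 : ℕ) : ZMod p))⁻¹ * (z : ZMod p) ^ (k + 1)) := by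
    rw [truncLog, eval_finsetSum]
    simp only [eval_mul, eval_pow, eval_C, eval_X]
    exact map_sum (mulLiftHom p) _ _
  rw [hm]
  ring

/-- The additive character `z ↦ e(z / p²)`. -/
def eSq (p : ℕ) [Fact p.Prime] : AddChar (ZMod (p ^ 2)) ℂ :=
  haveI : NeZero (p ^ 2) := neZero_sq
  ZMod.stdAddChar

theorem eSq_intCast (j : ℤ) :
    eSq p (j : ZMod (p ^ 2)) = Complex.exp (2 * Real.pi * Complex.I * j / ((p : ℂ) ^ 2)) := by
  haveI : NeZero (p ^ 2) := neZero_sq
  rw [eSq, ZMod.stdAddChar_coe, Nat.cast_pow]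

theorem eSq_neg (z : ZMod (p ^ 2)) : eSq p (-z) = conj (eSq p z) := by
  haveI : NeZero (p ^ 2) := neZero_sq
  rw [eSq, ZMod.stdAddChar_apply, ZMod.stdAddChar_apply, AddChar.map_neg_eq_inv,
    Circle.coe_inv_eq_conj]

theorem sum_eSq_mulLift {k : ZMod p} (hk : k ≠ 0) : ∑ r : ZMod p, eSq p (mulLift (r * k)) = 0 := by
  have e : ∀ r : ZMod p, eSq p (mulLift (r * k)) = ZMod.stdAddChar (r * k) := by
    intro r
    obtain ⟨j, hj⟩ := ZMod.intCast_surjective (r * k)
    rw [← hj, mulLift_intCast, ← Int.cast_natCast, ← Int.cast_mul, eSq_intCast,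
      ZMod.stdAddChar_coe]
    congr 1
    push_cast
    field_simp
  simp only [e]
  rw [AddChar.sum_mulShift k (ZMod.isPrimitive_stdAddChar p), if_neg hk, Nat.cast_zero]

/-- Heilbronn's sum. -/
def heilSum (a : ZMod (p ^ 2)) : ℂ := ∑ x : ZMod p, eSq p (a * powLift x)

theorem heilSum_mul_conj (hodd : Odd p) (a : ZMod (p ^ 2)) :
    heilSum a * conj (heilSum a) =
      ∑ x : ZMod p, heilSum (a * (1 - mulLift ((truncLog p).eval x))) := by
  simp only [heilSum, map_sum, sum_mul_sum, ← eSq_neg, ← AddChar.map_add_eq_mul]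
  rw [sum_comm]
  conv_lhs =>
    arg 2
    intro m
    rw [← Equiv.sum_comp (Equiv.addLeft m)]
  rw [sum_comm]
  conv_rhs => rw [sum_comm]
  refine sum_congr rfl fun d _ => ?_
  rcases eq_or_ne d 0 with rfl | hd
  · simp [powLift, (Fact.out (p := p.Prime)).ne_zero]
  · rw [← Equiv.sum_comp ((Equiv.mulLeft₀ d hd).trans (Equiv.addLeft (-d)))]
    refine sum_congr rfl fun x _ => ?_
    congr 1
    simp only [Equiv.trans_apply, Equiv.coe_addLeft, Equiv.mulLeft₀_apply]
    rw [show -d + d * x + d = d * x by ring, show -d + d * x = -(d * (1 - x)) by ring,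
      powLift_neg hodd, powLift_mul, powLift_mul, ← powLift_add_powLift_one_sub hodd x]
    ring

theorem sum_norm_sq (hodd : Odd p) {a : ℤ} (ha : ¬(p : ℤ) ∣ a) :
    ∑ r : ZMod p, ‖heilSum (((a : ZMod (p ^ 2))) * (1 - mulLift r))‖ ^ 2 = (p : ℝ) ^ 2 := by
  classical
  have ha' : (a : ZMod p) ≠ 0 := fun h => ha ((ZMod.intCast_zmod_eq_zero_iff_dvd a p).1 h)
  apply Complex.ofReal_injective
  push_cast
  simp only [← Complex.mul_conj', heilSum, map_sum, sum_mul_sum, ← eSq_neg,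
    ← AddChar.map_add_eq_mul]
  rw [sum_comm]
  have e : ∀ m : ZMod p, (∑ r : ZMod p, ∑ n : ZMod p,
      eSq p ((a : ZMod (p ^ 2)) * (1 - mulLift r) * powLift m +
        -((a : ZMod (p ^ 2)) * (1 - mulLift r) * powLift n))) = (p : ℂ) := by
    intro m
    rw [sum_comm, sum_eq_single m]
    · simp
    · intro n _ hne
      obtain ⟨u, rfl⟩ := ZMod.intCast_surjective m
      obtain ⟨v, rfl⟩ := ZMod.intCast_surjective n
      have h1 : ∀ r : ZMod p, (a : ZMod (p ^ 2)) * (1 - mulLift r) * powLift (u : ZMod p) +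
          -((a : ZMod (p ^ 2)) * (1 - mulLift r) * powLift (v : ZMod p)) =
          (a : ZMod (p ^ 2)) * (powLift (u : ZMod p) - powLift (v : ZMod p)) +
            mulLift (r * -((a : ZMod p) * ((u : ZMod p) ^ p - (v : ZMod p) ^ p))) := by
        intro r
        obtain ⟨j, rfl⟩ := ZMod.intCast_surjective r
        rw [← Int.cast_pow, ← Int.cast_pow, ← Int.cast_sub, ← Int.cast_mul, ← Int.cast_neg,
          ← Int.cast_mul, mulLift_intCast, mulLift_intCast, powLift_intCast, powLift_intCast]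
        push_cast
        ring
      simp only [h1, AddChar.map_add_eq_mul, ← mul_sum]
      rw [sum_eSq_mulLift (neg_ne_zero.2 (mul_ne_zero ha' (by
        rw [ZMod.pow_card, ZMod.pow_card]; exact sub_ne_zero.2 hne.symm))), mul_zero]
    · intro h
      exact absurd (mem_univ m) h
  simp only [e, sum_const, card_univ, ZMod.card, nsmul_eq_mul]
  ring

/-- The fourth power of the sum and the multiplicities. -/
theorem norm_heilSum_pow_le (hodd : Odd p) {a : ℤ} (ha : ¬(p : ℤ) ∣ a) :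
    ‖heilSum (a : ZMod (p ^ 2))‖ ^ 4 ≤
      (∑ r : ZMod p, ((univ.filter fun x : ZMod p => (truncLog p).eval x = r).card : ℝ) ^ 2) *
        (p : ℝ) ^ 2 := by
  classical
  obtain ⟨N, hN⟩ : ∃ N : ZMod p → ℝ, N = fun r =>
    ((univ.filter fun x : ZMod p => (truncLog p).eval x = r).card : ℝ) := ⟨_, rfl⟩
  obtain ⟨T, hT⟩ : ∃ T, T = ‖heilSum (a : ZMod (p ^ 2))‖ := ⟨_, rfl⟩
  rw [← hT]
  have hpR : (0 : ℝ) ≤ p := Nat.cast_nonneg p
  have hsq : T ^ 2 ≤ ∑ r, N r * ‖heilSum ((a : ZMod (p ^ 2)) * (1 - mulLift r))‖ := by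
    have h := congrArg norm (heilSum_mul_conj hodd (a : ZMod (p ^ 2)))
    rw [norm_mul, Complex.norm_conj, ← sq, ← hT, ← sum_fiberwise univ
      (fun x => (truncLog p).eval x)] at h
    rw [h]
    refine (norm_sum_le _ _).trans (sum_le_sum fun r _ => ?_)
    rw [sum_congr rfl (g := fun _ => heilSum ((a : ZMod (p ^ 2)) * (1 - mulLift r)))
      fun x hx => by rw [(mem_filter.1 hx).2], sum_const, nsmul_eq_mul, norm_mul,
      Complex.norm_natCast, hN]
  calc T ^ 4 = (T ^ 2) ^ 2 := by ring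
    _ ≤ (∑ r, N r * ‖heilSum ((a : ZMod (p ^ 2)) * (1 - mulLift r))‖) ^ 2 :=
        pow_le_pow_left₀ (sq_nonneg _) hsq 2
    _ ≤ (∑ r, N r ^ 2) * ∑ r : ZMod p,
        ‖heilSum ((a : ZMod (p ^ 2)) * (1 - mulLift r))‖ ^ 2 := sum_mul_sq_le_sq_mul_sq _ _ _
    _ = _ := by rw [sum_norm_sq hodd ha, hN]

/-- **Heath-Brown's bound.** -/
theorem norm_heilSum_le (hodd : Odd p) {a : ℤ} (ha : ¬(p : ℤ) ∣ a) :
    ‖heilSum (a : ZMod (p ^ 2))‖ ≤ 3 * (p : ℝ) ^ (11 / 12 : ℝ) := by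
  classical
  obtain ⟨N, hN⟩ : ∃ N : ZMod p → ℝ, N = fun r =>
    ((univ.filter fun x : ZMod p => (truncLog p).eval x = r).card : ℝ) := ⟨_, rfl⟩
  obtain ⟨T, hT⟩ : ∃ T, T = ‖heilSum (a : ZMod (p ^ 2))‖ := ⟨_, rfl⟩
  rw [← hT]
  have hpR : (0 : ℝ) ≤ p := Nat.cast_nonneg p
  have hNsum : ∑ r, N r = p := by
    rw [hN, ← Nat.cast_sum, ← card_eq_sum_card_fiberwise fun x _ => mem_univ _, card_univ,
      ZMod.card]
  have hNle : ∀ r, N r ≤ 38 * (p : ℝ) ^ (2 / 3 : ℝ) := fun r => hN ▸ card_value_le r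
  have hN2 : ∑ r, N r ^ 2 ≤ 38 * (p : ℝ) ^ (2 / 3 : ℝ) * p := by
    calc ∑ r, N r ^ 2 ≤ ∑ r, 38 * (p : ℝ) ^ (2 / 3 : ℝ) * N r := sum_le_sum fun r _ => by
          rw [sq]
          exact mul_le_mul_of_nonneg_right (hNle r) (hN ▸ Nat.cast_nonneg _)
      _ = _ := by rw [← mul_sum, hNsum]
  have h4 : T ^ 4 ≤ 38 * (p : ℝ) ^ (2 / 3 : ℝ) * p * (p : ℝ) ^ 2 := by
    have h := norm_heilSum_pow_le hodd ha
    rw [← hT] at h
    refine h.trans (mul_le_mul_of_nonneg_right ?_ (sq_nonneg _))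
    simpa only [hN] using hN2
  refine le_of_pow_le_pow_left₀ four_ne_zero (by positivity) (h4.trans ?_)
  rw [mul_pow, ← Real.rpow_natCast ((p : ℝ) ^ (11 / 12 : ℝ)) 4, ← Real.rpow_mul hpR,
    show (11 / 12 : ℝ) * ((4 : ℕ) : ℝ) = 2 / 3 + (1 + 2) by norm_num,
    Real.rpow_add' hpR (by norm_num), Real.rpow_add' hpR (by norm_num), Real.rpow_one,
    Real.rpow_two, mul_assoc (38 * _)]
  rw [mul_assoc]
  exact mul_le_mul_of_nonneg_right (by norm_num) (by positivity)

end FA.HeilbronnSum
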